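/-
Row 37 (S43), block E0, helper75.  THE CONCRETE TOWER (instance of `E0/Lagr.lean`), J-language.  DEFINITIONS.

Level `N` (`= M q`), `J = JZero N`, `p` an odd prime.
* `Invol N`   : an involution `w` of `J` commuting with `G_ℚ` and preserving the Weil pairings (Atkin-Lehner at `q`);
* `eta`       : the family `T_l - a_l` (`l ∤ N p` prime, `G l`; `G` an arbitrary predicate);
* `RR`        : the ring generated by the `T_l`;
* `VV`        : the `p`-power torsion points on which all `eta i` are nilpotent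
                (`= J[p^∞]` localised at `𝔪`).
-/
import Fermat.Agent.S15.Pair.Main
import Fermat.Agent.S15.Pair.WeilJ
import Fermat.Agent.S15.Eps.Abstract
import Fermat.Agent.S15.HJ.Comm
import Fermat.Agent.S15.HJ.Equiv

set_option autoImplicit false

noncomputable section

namespace Fermat.Agent.S43.E0.Inst

open ModularCurve AlgebraicCurve Fermat.Agent.S24 Fermat.Agent.S19.Weil Fermat.Agent.S15
  Fermat.Agent.S15.Pair

/-- An involution of `J₀(N)` defined over `ℚ` and preserving the Weil pairings. -/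
structure Invol (N : ℕ) [NeZero N] where
  w : AddMonoid.End (JZero N)
  w_w : ∀ x, w (w x) = x
  w_gal : ∀ (σ : GQ) (x : JZero N), w (σ • x) = σ • w x
  w_weil : ∀ n : ℕ, 0 < n → ∀ x ∈ tors N n, ∀ y ∈ tors N n, weil n (w x) (w y) = weil n x y

variable (N : ℕ) [NeZero N] (p : ℕ) (G : ℕ → Prop) (a : ℕ → ℤ)

/-- The index set: the primes `l ∤ N p` satisfying `G` (`G` = good for the integral model in the application). -/
abbrev Idx : Type := {l : ℕ // l.Prime ∧ ¬ l ∣ N * p ∧ G l}

/-- The operators `T_l - a_l` defining the localisation. -/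
def eta (l : Idx N p G) : AddMonoid.End (JZero N) := Tp N l.1 - (a l.1 : AddMonoid.End (JZero N))

/-- The generators of the Hecke ring. -/
def gens : Set (AddMonoid.End (JZero N)) := {t | ∃ l : ℕ, l.Prime ∧ ¬ l ∣ N * p ∧ t = Tp N l}

/-- The ring generated by the `T_l` (`l ∤ N p`). -/
def RR : Subring (AddMonoid.End (JZero N)) := Subring.closure (gens N p)

theorem eta_mem (l : Idx N p G) : eta N p G a l ∈ RR N p :=
  (RR N p).sub_mem (Subring.subset_closure ⟨l.1, l.2.1, l.2.2.1, rfl⟩) (intCast_mem (RR N p) (a l.1))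

/-- `J[p^∞]` localised at `𝔪`. -/
def VV : AddSubgroup (JZero N) where
  carrier := {x | (∃ j : ℕ, p ^ j • x = 0) ∧ ∀ i, ∃ k : ℕ, (eta N p G a i ^ k) x = 0}
  zero_mem' := ⟨⟨0, smul_zero _⟩, fun _ => ⟨0, map_zero _⟩⟩
  add_mem' := by
    rintro x y ⟨⟨j, hj⟩, hx⟩ ⟨⟨j', hj'⟩, hy⟩
    refine ⟨⟨j + j', ?_⟩, fun i => ?_⟩
    · have h1 : p ^ (j + j') • x = 0 := by rw [pow_add, mul_nsmul, hj, nsmul_zero]
      have h2 : p ^ (j + j') • y = 0 := by rw [pow_add, mul_nsmul', hj', nsmul_zero]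
      rw [nsmul_add, h1, h2, add_zero]
    · obtain ⟨k, hk⟩ := hx i
      obtain ⟨l, hl⟩ := hy i
      refine ⟨k + l, ?_⟩
      rw [map_add]
      have h1 : (eta N p G a i ^ (k + l)) x = 0 := by
        rw [add_comm k l, pow_add, end_mul_apply, hk, map_zero]
      have h2 : (eta N p G a i ^ (k + l)) y = 0 := by
        rw [pow_add, end_mul_apply, hl, map_zero]
      rw [h1, h2, add_zero]
  neg_mem' := by
    rintro x ⟨⟨j, hj⟩, hx⟩
    refine ⟨⟨j, by rw [neg_nsmul, hj, neg_zero]⟩, fun i => ?_⟩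
    obtain ⟨k, hk⟩ := hx i
    exact ⟨k, by rw [map_neg, hk, neg_zero]⟩

theorem mem_VV {x : JZero N} : x ∈ VV N p G a ↔
    (∃ j : ℕ, p ^ j • x = 0) ∧ ∀ i, ∃ k : ℕ, (eta N p G a i ^ k) x = 0 := Iff.rfl

end Fermat.Agent.S43.E0.Inst

end
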