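/-
Row 37 (S43), block E0, helper75.  The Atkin-Lehner involution on `J₀(M q)` (instance of `Invol`) and its dictionary with
`ALData.wW` on the Kummer models.
-/
import Fermat.Agent.S43.E0.Inst.Defs
import Fermat.Agent.S43.Free.WeilW
import Fermat.Agent.C1.KumW
import Fermat.Agent.S17.W.Defs

set_option autoImplicit false

noncomputable section

namespace Fermat.Agent.S43.E0.Inst

open ModularCurve AlgebraicCurve Fermat.Agent.S24 Fermat.Agent.S19.Weil Fermat.Agent.S15
  Fermat.Agent.S15.Pair Fermat.Agent.C1 Fermat.Agent.S17.W Fermat.Agent.S43.Free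

variable {M q : ℕ} [NeZero M] [NeZero q]

/-- `w` as an automorphism. -/
def wE (D : ALData M q) (hq : q.Prime) : FN (M * q) ≃ₐ[Kbar] FN (M * q) :=
  AlgEquiv.ofAlgHom D.w D.w (AlgHom.ext fun u => D.w_w hq u) (AlgHom.ext fun u => D.w_w hq u)

theorem wE_apply (D : ALData M q) (hq : q.Prime) (u : FN (M * q)) : wE D hq u = D.w u := rfl

/-- `w` as a semilinear automorphism. -/
def wS (D : ALData M q) (hq : q.Prime) : SemilinearAut Kbar (FN (M * q)) :=
  SemilinearAut.ofAlgAut (wE D hq)

theorem wS_mul_self (D : ALData M q) (hq : q.Prime) : wS D hq * wS D hq = 1 := by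
  unfold wS
  rw [← map_mul]
  have : wE D hq * wE D hq = 1 := AlgEquiv.ext fun u => D.w_w hq u
  rw [this, map_one]

theorem wS_mul_gal (D : ALData M q) (hq : q.Prime) (σ : GQ) :
    wS D hq * gal (M * q) σ = gal (M * q) σ * wS D hq := by
  apply Subtype.ext
  apply Prod.ext
  · apply RingEquiv.ext
    intro u
    exact D.w_galF hq σ u
  · apply RingEquiv.ext
    intro c
    rfl

/-- The Atkin-Lehner involution on `J₀(M q)`. -/
def invol (D : ALData M q) (hq : q.Prime) : Invol (M * q) where
  w := DistribMulAction.toAddMonoidEnd (SemilinearAut Kbar (FN (M * q))) (JZero (M * q)) (wS D hq)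
  w_w := fun x => by
    show wS D hq • wS D hq • x = x
    rw [← mul_smul, wS_mul_self, one_smul]
  w_gal := fun σ x => by
    show wS D hq • gal (M * q) σ • x = gal (M * q) σ • wS D hq • x
    rw [← mul_smul, wS_mul_gal, mul_smul]
  w_weil := fun n hn x hx y hy => by
    have := Fermat.Agent.S19.Glue.isFF1 (M * q)
    have := Fermat.Agent.S19.Glue.nonConst (M * q)
    show weil n (wS D hq • x) (wS D hq • y) = weil n x y
    rw [weil_smul hn (wS D hq) (zsmul_of_mem_tors hx) (zsmul_of_mem_tors hy)]
    rfl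

theorem invol_w_apply (D : ALData M q) (hq : q.Prime) (x : JZero (M * q)) :
    (invol D hq).w x = wS D hq • x := rfl

theorem wW_eq_seW (D : ALData M q) (hq : q.Prime) (n : ℕ) (c : GAL.E.W (M * q) n) :
    D.wW n c = seW (wS D hq) n c := by
  obtain ⟨u, rfl⟩ := GAL.E.cls_surjective c
  rfl

end Fermat.Agent.S43.E0.Inst

end
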