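/-
Row 37 (S43), block E0, helper75.  The concrete tower, J-language: the Hecke ring `RR` acts commutatively and by
self-adjoint operators on `J[p ^ j]`; projector on `VV`; `VV` is `p`-divisible, Galois stable, and the Weil pairings are
non degenerate on `VV[p ^ j]`.
-/
import Fermat.Agent.S43.E0.Inst.Defs
import Fermat.Agent.S17.W.Div

set_option autoImplicit false

noncomputable section

namespace Fermat.Agent.S43.E0.Inst

open ModularCurve AlgebraicCurve Fermat.Agent.S24 Fermat.Agent.S19.Weil Fermat.Agent.S15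
  Fermat.Agent.S15.Pair

variable (N : ℕ) [NeZero N] (p : ℕ) (G : ℕ → Prop) (a : ℕ → ℤ)

/-- `T_l = φ + l φ⁻¹` on the `n`-torsion (Eichler-Shimura). -/
theorem Tp_eq_frob {n l : ℕ} (hl : l.Prime) (hlN : ¬ l ∣ N * n) (A : ValuationSubring Kbar)
    (hA : A.LiesOverPrime l) (φ : GQ) (hφ : A.IsFrobeniusAt φ l) {z : JZero N}
    (hz : z ∈ tors N n) : Tp N l z = φ • z + l • φ⁻¹ • z := by
  have h1 := eichlerShimuraTors N n l hl hlN A hA φ hφ (φ⁻¹ • z) (smul_mem_tors φ⁻¹ hz)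
  rw [smul_inv_smul] at h1
  rw [← sub_eq_zero, ← neg_eq_zero, ← h1]
  abel

/-- Every additive endomorphism commuting with `G_ℚ` commutes with `T_l` on the torsion. -/
theorem comm_Tp_of_gal (f : AddMonoid.End (JZero N)) (hf : ∀ (σ : GQ) x, f (σ • x) = σ • f x)
    {n l : ℕ} (hl : l.Prime) (hlN : ¬ l ∣ N * n) {x : JZero N} (hx : x ∈ tors N n) :
    f (Tp N l x) = Tp N l (f x) := by
  obtain ⟨A, φ, hA, hφ⟩ := Fermat.Agent.S58.exists_place l hl
  rw [Tp_eq_frob N hl hlN A hA φ hφ hx, Tp_eq_frob N hl hlN A hA φ hφ (end_mem_tors f hx),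
    map_add, map_nsmul, hf, hf]

theorem not_dvd_mul_pow (hp : p.Prime) {l : ℕ} (hl : l.Prime) (h : ¬ l ∣ N * p) (j : ℕ) :
    ¬ l ∣ N * p ^ j := by
  intro h1
  rcases (Nat.Prime.dvd_mul hl).1 h1 with h2 | h2
  · exact h (h2.mul_right p)
  · exact h ((hl.dvd_of_dvd_pow h2).mul_left N)

theorem selfAdj_w (I : Invol N) {n : ℕ} (hn : 0 < n) : SelfAdj (tors N n) (weil n) I.w := by
  intro x hx y hy
  rw [← I.w_weil n hn x hx _ (end_mem_tors I.w hy), I.w_w]

/-- `RR` on `J[p ^ j]`. -/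
theorem RR_props (hp : p.Prime) (j : ℕ) : ∀ t ∈ RR N p,
    (∀ x ∈ tors N (p ^ j), t x ∈ tors N (p ^ j)) ∧ SelfAdj (tors N (p ^ j)) (weil (p ^ j)) t ∧
      ∀ t' ∈ RR N p, ∀ x ∈ tors N (p ^ j), t (t' x) = t' (t x) := by
  have hn : 0 < p ^ j := pow_pos hp.pos j
  refine adjoint_closure (isBimul_tors N hn) (gens N p) (fun s _ x hx => end_mem_tors s hx) ?_ ?_
  · rintro s ⟨l, hl, hlN, rfl⟩ s' ⟨l', hl', hlN', rfl⟩ x hx
    exact Tp_comm N hl hl' (fun h => hlN (h.mul_right p)) (fun h => hlN' (h.mul_right p)) x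
  · rintro s ⟨l, hl, hlN, rfl⟩
    exact selfAdj_Tp N hn (eichlerShimuraTors N _) hl (not_dvd_mul_pow N p hp hl hlN j)

/-- The projector of `J[p ^ j]` onto `VV[p ^ j]`. -/
theorem exists_eps (hp : p.Prime) (j : ℕ) : ∃ ε ∈ RR N p,
    (∀ x ∈ tors N (p ^ j), ε x ∈ VV N p G a ∧ ε x ∈ tors N (p ^ j)) ∧
      ∀ x ∈ VV N p G a, x ∈ tors N (p ^ j) → ε x = x := by
  have hn : 0 < p ^ j := pow_pos hp.pos j
  have := finite_tors' N hn
  obtain ⟨ε, hε, h1, h2⟩ := Eps.exists_projector (tors N (p ^ j)) (RR N p)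
    (fun t ht => (RR_props N p hp j t ht).1) (fun t ht => (RR_props N p hp j t ht).2.2)
    (eta N p G a) (eta_mem N p G a)
  refine ⟨ε, hε, fun x hx => ⟨⟨⟨j, end_mem_tors ε hx⟩, h1 x hx⟩, end_mem_tors ε hx⟩,
    fun x hx hx' => h2 x hx' hx.2⟩

/-- An endomorphism commuting with `G_ℚ` commutes with the `eta l ^ k` on the `p`-power torsion. -/
theorem eta_pow_comm (hp : p.Prime) (f : AddMonoid.End (JZero N))
    (hf : ∀ (σ : GQ) x, f (σ • x) = σ • f x) (l : Idx N p G) (j k : ℕ) {x : JZero N}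
    (hx : x ∈ tors N (p ^ j)) : (eta N p G a l ^ k) (f x) = f ((eta N p G a l ^ k) x) := by
  induction k with
  | zero => rfl
  | succ k ih =>
    rw [pow_succ', end_mul_apply, end_mul_apply, ih]
    have h1 : (eta N p G a l ^ k) x ∈ tors N (p ^ j) := end_mem_tors _ hx
    show Tp N l.1 (f _) - (a l.1 : AddMonoid.End (JZero N)) (f _) =
      f (Tp N l.1 _ - (a l.1 : AddMonoid.End (JZero N)) _)
    rw [← comm_Tp_of_gal N f hf l.2.1 (not_dvd_mul_pow N p hp l.2.1 l.2.2.1 j) h1,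
      AddMonoid.End.intCast_apply, AddMonoid.End.intCast_apply, map_sub, map_zsmul]

/-- `VV` is stable under every endomorphism defined over `ℚ`. -/
theorem map_mem_VV (hp : p.Prime) (f : AddMonoid.End (JZero N))
    (hf : ∀ (σ : GQ) x, f (σ • x) = σ • f x) {x : JZero N} (hx : x ∈ VV N p G a) :
    f x ∈ VV N p G a := by
  obtain ⟨⟨j, hj⟩, h⟩ := hx
  refine ⟨⟨j, end_mem_tors f hj⟩, fun i => ?_⟩
  obtain ⟨k, hk⟩ := h i
  exact ⟨k, by rw [eta_pow_comm N p G a hp f hf i j k hj, hk, map_zero]⟩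

theorem smul_mem_VV (hp : p.Prime) (σ : GQ) {x : JZero N} (hx : x ∈ VV N p G a) :
    σ • x ∈ VV N p G a := by
  obtain ⟨⟨j, hj⟩, h⟩ := hx
  refine ⟨⟨j, smul_mem_tors σ hj⟩, fun i => ?_⟩
  obtain ⟨k, hk⟩ := h i
  have key : ∀ (k : ℕ) (y : JZero N), (eta N p G a i ^ k) (σ • y) = σ • (eta N p G a i ^ k) y := by
    intro k
    induction k with
    | zero => intro y; rfl
    | succ k ih =>
      intro y
      rw [pow_succ', end_mul_apply, end_mul_apply, ih]
      show Tp N i.1 (σ • _) - (a i.1 : AddMonoid.End (JZero N)) (σ • _) =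
        σ • (Tp N i.1 _ - (a i.1 : AddMonoid.End (JZero N)) _)
      rw [heckeGalois N i.1 i.2.1 (fun h => i.2.2.1 (h.mul_right p)), AddMonoid.End.intCast_apply,
        AddMonoid.End.intCast_apply, smul_sub, smul_comm]
  exact ⟨k, by rw [key, hk]; exact (DistribSMul.toAddMonoidHom (JZero N) σ).map_zero⟩

/-- `VV` is `p`-divisible. -/
theorem VV_div (hp : p.Prime) {x : JZero N} (hx : x ∈ VV N p G a) :
    ∃ y ∈ VV N p G a, p • y = x := by
  obtain ⟨j, hj⟩ := hx.1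
  obtain ⟨y, hy⟩ := Fermat.Agent.S17.W.exists_nsmul_eq_JZero N p hp.pos x
  have hy' : y ∈ tors N (p ^ (j + 1)) := by
    show p ^ (j + 1) • y = 0
    rw [pow_succ, mul_nsmul', hy, hj]
  have hx' : x ∈ tors N (p ^ (j + 1)) := by
    show p ^ (j + 1) • x = 0
    rw [pow_succ, mul_nsmul, hj, nsmul_zero]
  obtain ⟨ε, -, h1, h2⟩ := exists_eps N p G a hp (j + 1)
  exact ⟨ε y, (h1 y hy').1, by rw [← map_nsmul, hy, h2 x hx hx']⟩

/-- The Weil pairing is non degenerate on `VV[p ^ j]`. -/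
theorem VV_nondeg (hp : p.Prime) (j : ℕ) : Nondeg (VV N p G a ⊓ tors N (p ^ j)) (weil (p ^ j)) := by
  obtain ⟨ε, hε, h1, h2⟩ := exists_eps N p G a hp j
  exact nondeg_of_idempotent (nondeg_tors N (pow_pos hp.pos j)) inf_le_right ε
    (fun x hx => h1 x hx) (fun x hx => h2 x hx.1 hx.2) (RR_props N p hp j ε hε).2.1

end Fermat.Agent.S43.E0.Inst

end
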