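/-
Row 37 (S43), block E0, helper75.  The toric part `YJ D A n ≤ J₀(M q)[n]` (image of `S33.Mid.Ktor` under the dictionary
`Free.picW`) and its formal properties, all from the landed C1 / S33 API.
-/
import Fermat.Agent.S43.E0.Inst.AL
import Fermat.Agent.S43.Exp.Basic
import Fermat.Agent.S33.Mid.KSub
import Fermat.Agent.C1.Main
import Fermat.Agent.C1.Target
import Fermat.Agent.S15.LocN.Jac

set_option autoImplicit false

noncomputable section

namespace Fermat.Agent.S43.E0.Inst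

open ModularCurve AlgebraicCurve Fermat.Agent.S24 Fermat.Agent.S19.Weil Fermat.Agent.S15
  Fermat.Agent.S15.Pair Fermat.Agent.C1 Fermat.Agent.S17.W Fermat.Agent.S43.Free
  Fermat.Agent.S33.Mid Fermat.Agent.GAL.E

/-- The dictionary `W N n → J₀(N)[n]`. -/
def picHom (N n : ℕ) [NeZero N] [NeZero n] : W N n →+ JZero N :=
  AddMonoidHom.mk' (picW n) (picW_add (NeZero.pos n))

section General

variable (N n : ℕ) [NeZero N] [NeZero n]

theorem picHom_apply (c : W N n) : picHom N n c = picW n c := rfl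

theorem picHom_injective : Function.Injective (picHom N n) := picW_injective (NeZero.pos n)

theorem picHom_mem_tors (c : W N n) : picHom N n c ∈ tors N n :=
  mem_tors_of_zsmul (zsmul_picW (NeZero.pos n) c)

theorem exists_picHom_eq {x : JZero N} (hx : x ∈ tors N n) : ∃ c : W N n, picHom N n c = x :=
  exists_picW_eq (NeZero.pos n) x (zsmul_of_mem_tors hx)

theorem picHom_rho (σ : S15.GQ) (c : W N n) : picHom N n (rho N n σ c) = σ • picHom N n c :=
  picW_seW (NeZero.pos n) (gal N σ) c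

end General

variable {M q : ℕ} [NeZero M] [NeZero q] (D : ALData M q) (A : ValuationSubring Kbar)

theorem picHom_wW (hq : q.Prime) (n : ℕ) [NeZero n] (c : W (M * q) n) :
    picHom (M * q) n (D.wW n c) = (invol D hq).w (picHom (M * q) n c) := by
  rw [wW_eq_seW D hq]
  exact picW_seW (NeZero.pos n) (wS D hq) c

/-- The toric part of `J₀(M q)[n]`. -/
def YJ (n : ℕ) [NeZero n] : AddSubgroup (JZero (M * q)) := (Ktor D A n).map (picHom (M * q) n)

variable {D A}

theorem mem_YJ {n : ℕ} [NeZero n] {x : JZero (M * q)} :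
    x ∈ YJ D A n ↔ ∃ c ∈ Ktor D A n, picHom (M * q) n c = x := Iff.rfl

theorem YJ_le_tors (n : ℕ) [NeZero n] : YJ D A n ≤ tors (M * q) n := by
  rintro _ ⟨c, -, rfl⟩
  exact picHom_mem_tors _ _ c

/-- (T3) `(τ - 1) J[n]` is toric. -/
theorem smul_sub_mem_YJ (hq : q.Prime) (hA : A.LiesOverPrime q) {n : ℕ} [NeZero n] {τ : S15.GQ}
    (hτ : τ ∈ A.inertiaSubgroupIn ℚ) {x : JZero (M * q)} (hx : x ∈ tors (M * q) n) :
    τ • x - x ∈ YJ D A n := by
  obtain ⟨c, rfl⟩ := exists_picHom_eq _ _ hx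
  exact ⟨_, rho_sub_mem_Ktor D hq hA hτ c, by rw [map_sub, picHom_rho]⟩

/-- (T4) inertia acts trivially on the toric part. -/
theorem smul_eq_of_mem_YJ (hT : NodalTarget) (hq : q.Prime) (hqM : ¬ q ∣ M)
    (hA : A.LiesOverPrime q) {n : ℕ} [NeZero n] (hqn : ¬ q ∣ n) {τ : S15.GQ}
    (hτ : τ ∈ A.inertiaSubgroupIn ℚ) {y : JZero (M * q)} (hy : y ∈ YJ D A n) : τ • y = y := by
  obtain ⟨c, hc, rfl⟩ := hy
  have h := smul_rho_sub_of_isTor D (nod_of_target hT hq hqM D A hA n (NeZero.pos n) hqn).1 τ hτ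
    (isTor_of_mem_Ktor D hq hA hc)
  rw [one_smul, sub_eq_zero] at h
  rw [← picHom_rho, h]

/-- (T5) `φ² = q²` on the toric part. -/
theorem frob_sq_of_mem_YJ (hT : NodalTarget) (hq : q.Prime) (hqM : ¬ q ∣ M)
    (hA : A.LiesOverPrime q) {n : ℕ} [NeZero n] (hqn : ¬ q ∣ n) {φ : S15.GQ}
    (hφ : A.IsFrobeniusAt φ q) {y : JZero (M * q)} (hy : y ∈ YJ D A n) :
    φ • φ • y = q ^ 2 • y := by
  obtain ⟨c, hc, rfl⟩ := hy
  have h := smul_rho_rho_sub_of_isTor D (nod_of_target hT hq hqM D A hA n (NeZero.pos n) hqn).2 φ hφ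
    (isTor_of_mem_Ktor D hq hA hc)
  rw [one_smul, sub_eq_zero] at h
  rw [← picHom_rho, ← picHom_rho, h, map_nsmul]

/-- (T6) `(φ + w) x` is toric if `α_* x = 0` and `α_* (w x) = 0`. -/
theorem frob_add_mem_YJ (hq : q.Prime) (hA : A.LiesOverPrime q) {n : ℕ} [NeZero n] {φ : S15.GQ}
    (hφ : A.IsFrobeniusAt φ q) (c : W (M * q) n)
    (hold : D.nmW n c = 0) (hold' : D.nmW n (D.wW n c) = 0) :
    φ • picHom (M * q) n c + (invol D hq).w (picHom (M * q) n c) ∈ YJ D A n := by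
  have h1 := isKinf_frob D hq hA φ hφ c
  rw [hold, map_zero, zero_sub] at h1
  have h2 := isKinf_frob D hq hA φ hφ (D.wW n c)
  rw [hold', map_zero, zero_sub, D.wW_wW n hq] at h2
  refine ⟨rho (M * q) n φ c + D.wW n c, ⟨?_, ?_⟩, by rw [map_add, picHom_rho, picHom_wW D hq]⟩
  · have e : rho (M * q) n φ c + D.wW n c = -(-D.wW n c - rho (M * q) n φ c) := by abel
    rw [e]
    exact h2.neg
  · have e : D.wW n (rho (M * q) n φ c + D.wW n c) = -(-c - rho (M * q) n φ (D.wW n c)) := by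
      rw [map_add, D.wW_rho n hq, D.wW_wW n hq]
      abel
    rw [e]
    exact h1.neg

end Fermat.Agent.S43.E0.Inst

end
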