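/-
Row 37 (S43), block E0/INST (owner helper75), task E0-INST-TOREXP-A (helper92).
Change of exponent for the dictionary `picHom`, for `IsKinf` and for `wW` (easy half of `Inst/WIP/TorExp.lean`).
-/
import Fermat.Agent.S43.E0.Inst.Tor

set_option autoImplicit false
set_option linter.unusedSectionVars false

noncomputable section

namespace Fermat.Agent.S43.E0.Inst

open ModularCurve AlgebraicCurve Fermat.Agent.S24 Fermat.Agent.S19.Weil Fermat.Agent.S15
  Fermat.Agent.S15.Pair Fermat.Agent.C1 Fermat.Agent.S17.W Fermat.Agent.S43.Free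
  Fermat.Agent.S33.Mid Fermat.Agent.GAL.E

section General

variable (N n k : ℕ) [NeZero N] [NeZero n] [NeZero k] [NeZero (n * k)]

theorem picHom_dn (c : W N (n * k)) :
    picHom N n (Exp.dn n k c) = k • picHom N (n * k) c := by
  show picW n (Exp.dn n k c) = k • picW (n * k) c
  apply picW_eq (NeZero.pos n)
  obtain ⟨u, Dv, hD, hu, hc, hord⟩ := isPic_picW (NeZero.pos (n * k)) c
  refine ⟨⟨(u : (FN N)ˣ), Exp.kum_mul_le n k u.2⟩, k • Dv, by rw [map_nsmul, hD, smul_zero], ?_, ?_,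
    fun v => ?_⟩
  · rw [← hu]
    rfl
  · rw [Pairing.cls_nsmul hD, hc]
  · have h := hord v
    rw [Finsupp.smul_apply, nsmul_eq_mul]
    show v.ord (((u : (FN N)ˣ) : FN N)) = _
    rw [h]
    push_cast
    ring

theorem picHom_up (c : W N n) : picHom N (n * k) (Exp.up n k c) = picHom N n c := by
  show picW (n * k) (Exp.up n k c) = picW n c
  apply picW_eq (NeZero.pos (n * k))
  obtain ⟨u, Dv, hD, hu, hc, hord⟩ := isPic_picW (NeZero.pos n) c
  refine ⟨⟨(u : (FN N)ˣ) ^ k, Exp.pow_mem_kum k u.2⟩, Dv, hD, ?_, hc, fun v => ?_⟩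
  · rw [← hu]
    rfl
  · show v.ord ((((u : (FN N)ˣ) ^ k : (FN N)ˣ) : FN N)) = _
    rw [Units.val_pow_eq_pow_val, FF.ord_pow, hord v]
    push_cast
    ring

variable {N n k}

theorem isKinf_dn {A : ValuationSubring Kbar} {c : W N (n * k)} (h : IsKinf A c) :
    IsKinf A (Exp.dn n k c : W N n) := by
  obtain ⟨u, rfl, hu⟩ := h
  exact ⟨⟨(u : (FN N)ˣ), Exp.kum_mul_le n k u.2⟩, rfl, hu⟩

end General

variable {M q : ℕ} [NeZero M] [NeZero q] {D : ALData M q} {A : ValuationSubring Kbar}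
variable {n k : ℕ} [NeZero n] [NeZero k] [NeZero (n * k)]

theorem wW_dn (c : W (M * q) (n * k)) : D.wW n (Exp.dn n k c) = Exp.dn n k (D.wW (n * k) c) := by
  obtain ⟨u, rfl⟩ := GAL.E.cls_surjective c
  rfl

theorem wW_up (c : W (M * q) n) : D.wW (n * k) (Exp.up n k c) = Exp.up n k (D.wW n c) := by
  obtain ⟨u, rfl⟩ := GAL.E.cls_surjective c
  exact congrArg GAL.E.cls (Subtype.ext (map_pow
    (Units.map ((D.w : FN (M * q) →+* FN (M * q)) : FN (M * q) →* FN (M * q)))
    (u : (FN (M * q))ˣ) k))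

end Fermat.Agent.S43.E0.Inst

end
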