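/-
Row 37 (S43), block E0, node INST (helper61).  The fields `Y_p` and `Y_tors` (= (f3)) of the tower of toric parts, in
`J`-language (`S15.LocN.IsTorJ`), level `M q`, generic exponents.

* `exists_C_of_pow_eq_C`        : a Laurent series whose `k`-th power is a nonzero constant is constant (`k ≠ 0` in `κ`);
* `exists_const_cong1_of_pow`   : `h ^ k ≡ 1` at the Gauss valuation, `q ∤ k`  ⟹  `c h ≡ 1` for a constant `c`;
* `IsTorJ.nsmul`                : `x` toric of exponent `r k`  ⟹  `k x` toric of exponent `r`;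
* `IsTorJ.of_nsmul_eq_zero`     : `x` toric of exponent `r k`, `r x = 0`, `q ∤ k`  ⟹  `x` toric of exponent `r`.
-/
import Fermat.Agent.S15.LocN.Jac
import Fermat.Agent.C1.Approx
import Fermat.Agent.GAL.KLInputs.Arith

set_option autoImplicit false

noncomputable section

namespace Fermat.Agent.S43.E0.Inst

open ModularCurve AlgebraicCurve Fermat.Agent.S24 Fermat.Agent.S24.B Fermat.Agent.GAL
  Fermat.Agent.GAL.E Fermat.Agent.C1 Fermat.Agent.S27 Fermat.Agent.S19.Weil Fermat.Agent.S17.W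
  Fermat.Agent.S15.LocN

open PowerSeries in
/-- A Laurent series whose `k`-th power is a nonzero constant is a constant. -/
theorem exists_C_of_pow_eq_C {κ : Type*} [Field κ] {k : ℕ} (hk : (k : κ) ≠ 0)
    {r : LaurentSeries κ} {a : κ} (ha : a ≠ 0) (h : r ^ k = HahnSeries.C a) :
    ∃ b : κ, r = HahnSeries.C b := by
  have hk0 : 0 < k := by
    rcases Nat.eq_zero_or_pos k with rfl | h0
    · simp at hk
    · exact h0
  have hC : ∀ c : κ, algebraMap κ⟦X⟧ (LaurentSeries κ) (PowerSeries.C c) = HahnSeries.C c := by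
    intro c
    rw [LaurentSeries.coe_algebraMap, HahnSeries.ofPowerSeries_C]
  have hint : IsIntegral κ⟦X⟧ r := by
    apply IsIntegral.of_pow hk0
    rw [h, ← hC]
    exact isIntegral_algebraMap
  obtain ⟨r', rfl⟩ := IsIntegrallyClosed.isIntegral_iff.mp hint
  have hinj : Function.Injective (algebraMap κ⟦X⟧ (LaurentSeries κ)) :=
    IsFractionRing.injective _ _
  have h' : r' ^ k = PowerSeries.C a := by
    apply hinj
    rw [map_pow, h, hC]
  set b : κ := constantCoeff r' with hb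
  have hbk : b ^ k = a := by
    have := congrArg (constantCoeff (R := κ)) h'
    rwa [map_pow, constantCoeff_C] at this
  have hb0 : b ≠ 0 := by
    rintro h0
    rw [h0, zero_pow hk0.ne'] at hbk
    exact ha hbk.symm
  have hfac := (Commute.all r' (PowerSeries.C b)).mul_geom_sum₂ k
  rw [h', ← map_pow, hbk, sub_self] at hfac
  have hG : (∑ i ∈ Finset.range k, r' ^ i * (PowerSeries.C b) ^ (k - 1 - i)) ≠ 0 := by
    intro h0
    have := congrArg (constantCoeff (R := κ)) h0
    rw [map_sum, map_zero] at this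
    have e : ∀ i ∈ Finset.range k,
        constantCoeff (r' ^ i * (PowerSeries.C b) ^ (k - 1 - i)) = b ^ (k - 1) := by
      intro i hi
      rw [map_mul, map_pow, map_pow, constantCoeff_C, ← hb, ← pow_add]
      congr 1
      have := Finset.mem_range.mp hi
      omega
    rw [Finset.sum_congr rfl e, Finset.sum_const, Finset.card_range, nsmul_eq_mul] at this
    exact (mul_ne_zero hk (pow_ne_zero _ hb0)) this
  refine ⟨b, ?_⟩
  rcases mul_eq_zero.mp hfac with h1 | h1
  · rw [sub_eq_zero.mp h1, hC]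
  · exact absurd h1 hG

variable {A : ValuationSubring Kbar} {q : ℕ}

/-- `h ^ k ≡ 1` at the Gauss valuation and `q ∤ k`: then `h` is `≡` a constant. -/
theorem exists_const_cong1_of_pow (hq : q.Prime) (hA : A.LiesOverPrime q) {N k : ℕ}
    (hk : ¬ q ∣ k) {h : FN N} (hh : Cong1 A N (h ^ k)) :
    ∃ c : Kbar, c ≠ 0 ∧ Cong1 A N (algebraMap Kbar (FN N) c * h) := by
  have hh0 : h ≠ 0 := by
    rintro rfl
    have hk0 : k ≠ 0 := by
      rintro rfl
      exact hk (dvd_zero q)
    apply hh.ne_zero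
    rw [zero_pow hk0]
  obtain ⟨c, r, hr⟩ := exists_redS hq hA h hh0
  have h1 := hr.pow k
  have h2 : RedS A ((h : LaurentSeries Kbar) ^ k) 1 1 := hh.redS
  obtain ⟨a, -, ha2⟩ := h1.unique h2
  have hkκ : (k : IsLocalRing.ResidueField A) ≠ 0 := by
    have := KLInputs.intCast_residueField_ne_zero A hq hA (k : ℤ) (by exact_mod_cast hk)
    simpa using this
  have hrk : r ^ k = HahnSeries.C (IsLocalRing.residue A ((a⁻¹ : Aˣ) : A)) := by
    have e1 : HahnSeries.C (IsLocalRing.residue A ((a⁻¹ : Aˣ) : A)) *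
        HahnSeries.C (IsLocalRing.residue A (a : A)) =
        (1 : LaurentSeries (IsLocalRing.ResidueField A)) := by
      rw [← map_mul, ← map_mul, Units.inv_mul, map_one, map_one]
    calc r ^ k = (HahnSeries.C (IsLocalRing.residue A ((a⁻¹ : Aˣ) : A)) *
          HahnSeries.C (IsLocalRing.residue A (a : A))) * r ^ k := by rw [e1, one_mul]
      _ = HahnSeries.C (IsLocalRing.residue A ((a⁻¹ : Aˣ) : A)) *
          (HahnSeries.C (IsLocalRing.residue A (a : A)) * r ^ k) := mul_assoc _ _ _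
      _ = _ := by rw [← ha2, mul_one]
  have hres0 : IsLocalRing.residue A ((a⁻¹ : Aˣ) : A) ≠ 0 :=
    ((a⁻¹).isUnit.map (IsLocalRing.residue A)).ne_zero
  obtain ⟨b, rfl⟩ := exists_C_of_pow_eq_C hkκ hres0 hrk
  have hb0 : b ≠ 0 := by
    rintro rfl
    exact hr.red_ne_zero (map_zero _)
  obtain ⟨b', rfl⟩ := IsLocalRing.residue_surjective b
  have hb : IsUnit b' := by
    by_contra hb
    exact hb0 ((IsLocalRing.residue_eq_zero_iff b').mpr ((IsLocalRing.mem_maximalIdeal b').mpr hb))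
  obtain ⟨bu, rfl⟩ := hb
  have h3 := hr.rescale bu
  have e1 : HahnSeries.C (IsLocalRing.residue A ((bu⁻¹ : Aˣ) : A)) *
      HahnSeries.C (IsLocalRing.residue A (bu : A)) =
      (1 : LaurentSeries (IsLocalRing.ResidueField A)) := by
    rw [← map_mul, ← map_mul, Units.inv_mul, map_one, map_one]
  rw [e1] at h3
  set c' : Kbar := ((bu : A) : Kbar) * c with hc'
  have hc0 : c' ≠ 0 := h3.1
  have h4 := (RedS.const (A := A) (inv_ne_zero hc0)).mul h3
  rw [inv_mul_cancel₀ hc0, one_mul] at h4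
  refine ⟨c'⁻¹, inv_ne_zero hc0, cong1_of_redS hq hA ?_⟩
  have : ((algebraMap Kbar (FN N) c'⁻¹ * h : FN N) : LaurentSeries Kbar) =
      HahnSeries.C c'⁻¹ * (h : LaurentSeries Kbar) := by
    rw [← Kinf.coe_algebraMap (N := N) c'⁻¹]
    rfl
  rw [this]
  exact h4

variable {M : ℕ} [NeZero M] [NeZero q]

/-- **(`Y_p`)** `x` toric of exponent `r k`  ⟹  `k x` toric of exponent `r`. -/
theorem IsTorJ.nsmul {D : ALData M q} {r k : ℕ} {x : JZero (M * q)}
    (h : IsTorJ D A (r * k) x) : IsTorJ D A r (k • x) := by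
  obtain ⟨a, h1, h2⟩ := h
  exact ⟨torsRepMul a, h1, h2⟩

/-- **(`Y_tors`, (f3))** `x` toric of exponent `r k`, `r x = 0`, `q ∤ k`  ⟹  `x` toric of exponent `r`. -/
theorem IsTorJ.of_nsmul_eq_zero (D : ALData M q) (hq : q.Prime) (hA : A.LiesOverPrime q)
    {r k : ℕ} (hr : 0 < r) (hk : ¬ q ∣ k) {x : JZero (M * q)} (h : IsTorJ D A (r * k) x)
    (hx : r • x = 0) : IsTorJ D A r x := by
  have hk0 : 0 < k := by
    rcases Nat.eq_zero_or_pos k with rfl | h0
    · exact absurd (dvd_zero q) hk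
    · exact h0
  obtain ⟨a, h1, h2⟩ := h
  have hcls : S27.cls ((r : ℤ) • a.D) = 0 := by
    rw [rep_cls_natCast_zsmul a.deg, a.cls_eq, natCast_zsmul, hx]
  obtain ⟨h₀, hh₀⟩ := (cls_eq_zero_iff (by rw [map_zsmul, a.deg, smul_zero])).mp hcls
  have hh₀' : IsDivOf ((r : ℤ) • a.D) h₀ := hh₀
  have hden : h₀ ^ k ≠ 0 := pow_ne_zero _ hh₀'.1
  have hord : ∀ v : Place Kbar (FN (M * q)), v.ord (a.f * (h₀ ^ k)⁻¹) = 0 := by
    intro v
    rw [v.ord_mul a.div.1 (inv_ne_zero hden), v.ord_inv, FF.ord_pow, ← a.div.2, ← hh₀'.2,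
      Finsupp.smul_apply, Finsupp.smul_apply, smul_eq_mul, smul_eq_mul]
    push_cast
    ring
  obtain ⟨c, hc⟩ := eq_algebraMap_of_forall_ord_nonneg (K := Kbar) _ (fun v => (hord v).ge)
  have hc0 : c ≠ 0 := by
    rintro rfl
    rw [map_zero] at hc
    exact mul_ne_zero a.div.1 (inv_ne_zero hden) hc
  obtain ⟨d, hd⟩ := IsAlgClosed.exists_pow_nat_eq c hk0
  have hd0 : d ≠ 0 := by
    rintro rfl
    rw [zero_pow hk0.ne'] at hd
    exact hc0 hd.symm
  set hh : FN (M * q) := algebraMap Kbar (FN (M * q)) d * h₀ with hhdef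
  have haf : a.f = hh ^ k := by
    rw [hhdef, mul_pow, ← map_pow, hd, ← hc, inv_mul_cancel_right₀ hden]
  have hdiv : IsDivOf ((r : ℤ) • a.D) hh := by
    have := rep_isDivOf_mul (rep_isDivOf_const (F := FN (M * q)) hd0) hh₀'
    rwa [zero_add] at this
  let b : TorsRep r x := ⟨a.D, hh, a.deg, a.cls_eq, hdiv⟩
  obtain ⟨c1, hc1, C1⟩ := exists_const_cong1_of_pow hq hA hk (h := hh) (by rw [← haf]; exact h1)
  obtain ⟨c2, hc2, C2⟩ := exists_const_cong1_of_pow hq hA hk (h := D.w hh)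
    (by rw [← map_pow, ← haf]; exact h2)
  obtain ⟨τ, hτ⟩ := IsAlgClosed.exists_pow_nat_eq (c2 / c1) hr
  have hτ0 : τ ≠ 0 := by
    rintro rfl
    rw [zero_pow hr.ne'] at hτ
    exact div_ne_zero hc2 hc1 hτ.symm
  have hτF : algebraMap Kbar (FN (M * q)) τ ≠ 0 := (map_ne_zero _).2 hτ0
  obtain ⟨g, hg0, G1, G2⟩ := exists_approx D hq hA (algebraMap Kbar (FN (M * q)) τ) hτF
  obtain ⟨G, hG⟩ := exists_isDivOf (K := Kbar) g hg0
  refine ⟨(b.scale c1 hc1).move g G hG, ?_, ?_⟩
  · show Cong1 A (M * q) (g ^ r * (algebraMap Kbar (FN (M * q)) c1 * hh))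
    exact (G1.pow r).mul C1
  · show Cong1 A (M * q) (D.w (g ^ r * (algebraMap Kbar (FN (M * q)) c1 * hh)))
    have key : D.w (g ^ r * (algebraMap Kbar (FN (M * q)) c1 * hh)) =
        D.w (g / algebraMap Kbar (FN (M * q)) τ) ^ r *
          (algebraMap Kbar (FN (M * q)) c2 * D.w hh) := by
      have e1 : algebraMap Kbar (FN (M * q)) c2 =
          algebraMap Kbar (FN (M * q)) τ ^ r * algebraMap Kbar (FN (M * q)) c1 := by
        rw [← map_pow, hτ, ← map_mul, div_mul_cancel₀ _ hc1]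
      rw [e1, map_mul, map_mul, map_pow, map_div₀, AlgHom.commutes, AlgHom.commutes, div_pow]
      field_simp
    rw [key]
    exact (G2.pow r).mul C2

end Fermat.Agent.S43.E0.Inst

end
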