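/-
Row 37 (S43), block E0/INST, task 3780 (helper61): leaf `isKinf_of_up` of `E0/Inst/WIP/TorExp.lean`:
a class whose image in the Kummer model of exponent `n k` (`[u] ↦ [u ^ k]`, `q ∤ k`) is `≡ 1` at the Gauss valuation is
itself `≡ 1` at the Gauss valuation.  Core: `exists_const_cong1_of_pow` (`E0/Inst/YTors.lean`).
-/
import Fermat.Agent.S43.E0.Inst.Tor
import Fermat.Agent.S43.E0.Inst.YTors

set_option autoImplicit false

noncomputable section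

namespace Fermat.Agent.S43.E0.Inst

open ModularCurve AlgebraicCurve Fermat.Agent.S24 Fermat.Agent.S19.Weil Fermat.Agent.S15
  Fermat.Agent.S15.Pair Fermat.Agent.C1 Fermat.Agent.S17.W Fermat.Agent.S43.Free
  Fermat.Agent.S33.Mid Fermat.Agent.GAL.E

variable {N n k : ℕ} [NeZero N] [NeZero n] [NeZero k] [NeZero (n * k)]

theorem isKinf_of_up {A : ValuationSubring Kbar} {q : ℕ} (hq : q.Prime) (hA : A.LiesOverPrime q)
    (hqk : ¬ q ∣ k) {c : W N n} (h : IsKinf A (Exp.up n k c : W N (n * k))) : IsKinf A c := by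
  obtain ⟨u, rfl⟩ := GAL.E.cls_surjective c
  obtain ⟨u₁, hcls, C⟩ := h
  let uk : kum N (n * k) := ⟨(u : (FN N)ˣ) ^ k, Exp.pow_mem_kum k u.2⟩
  have hcls' : GAL.E.cls u₁ = GAL.E.cls uk := hcls
  have h3 : GAL.E.cls (u₁ * uk⁻¹) = 0 := by
    rw [GAL.E.cls_mul, GAL.E.cls_inv, hcls']
    exact add_neg_cancel (GAL.E.cls uk)
  obtain ⟨t, ht⟩ := (GAL.E.cls_eq_zero_iff _).mp h3
  have hu0 : ((u : (FN N)ˣ) : FN N) ≠ 0 := Units.ne_zero _
  have ht' : (t : FN N) ^ (n * k) = ((u₁ : (FN N)ˣ) : FN N) * (((u : (FN N)ˣ) : FN N) ^ k)⁻¹ := by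
    have := congrArg (fun z : (FN N)ˣ => (z : FN N)) ht
    simpa [uk] using this
  have hu₁ : ((u₁ : (FN N)ˣ) : FN N) = (((u : (FN N)ˣ) : FN N) * (t : FN N) ^ n) ^ k := by
    rw [mul_pow, ← pow_mul, ht']
    field_simp
  obtain ⟨c₀, hc₀, C'⟩ := exists_const_cong1_of_pow hq hA hqk
    (h := ((u : (FN N)ˣ) : FN N) * (t : FN N) ^ n) (by rw [← hu₁]; exact C)
  have hcF : algebraMap Kbar (FN N) c₀ ≠ 0 := (map_ne_zero _).2 hc₀
  let P : kum N n := ⟨t ^ n, pows_le_kum _ _ ⟨t, rfl⟩⟩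
  have hP : GAL.E.cls P = 0 := (GAL.E.cls_eq_zero_iff _).mpr ⟨t, rfl⟩
  let u₂ : kum N n := ⟨Units.mk0 _ hcF, isKum_algebraMap N n c₀⟩ * (u * P)
  refine ⟨u₂, ?_, ?_⟩
  · have e1 : GAL.E.cls u₂ = GAL.E.cls (u * P) := by
      apply cls_eq_of_eq_const_mul u₂ (u * P) c₀
      rfl
    rw [e1, GAL.E.cls_mul, hP]
    exact add_zero (GAL.E.cls u)
  · exact C'

end Fermat.Agent.S43.E0.Inst

end
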