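/-
Row 37 (S43), block E0/INST, helper75.  Change of exponent for the toric part `YJ` (fields `Y_p`, `Y_tors` of `TowerU`):
assembly of `E0/Inst/TorExpA.lean` (task 3779) and `E0/Inst/TorExpB.lean` (task 3780); statements of `Inst/WIP/TorExp.lean`.
-/
import Fermat.Agent.S43.E0.Inst.TorExpA
import Fermat.Agent.S43.E0.Inst.TorExpB

set_option autoImplicit false

noncomputable section

namespace Fermat.Agent.S43.E0.Inst

open ModularCurve AlgebraicCurve Fermat.Agent.S24 Fermat.Agent.S19.Weil Fermat.Agent.S15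
  Fermat.Agent.S15.Pair Fermat.Agent.C1 Fermat.Agent.S17.W Fermat.Agent.S43.Free
  Fermat.Agent.S33.Mid Fermat.Agent.GAL.E

variable {M q : ℕ} [NeZero M] [NeZero q] {D : ALData M q} {A : ValuationSubring Kbar}
variable {n k : ℕ} [NeZero n] [NeZero k] [NeZero (n * k)]

/-- (T7) = field `Y_p`. -/
theorem nsmul_mem_YJ {x : JZero (M * q)} (hx : x ∈ YJ D A (n * k)) : k • x ∈ YJ D A n := by
  obtain ⟨c, hc, rfl⟩ := hx
  refine ⟨Exp.dn n k c, ⟨isKinf_dn hc.1, ?_⟩, picHom_dn _ _ _ c⟩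
  rw [wW_dn]
  exact isKinf_dn hc.2

/-- (T8) = field `Y_tors`. -/
theorem mem_YJ_of_nsmul_eq_zero (hq : q.Prime) (hA : A.LiesOverPrime q) (hqk : ¬ q ∣ k)
    {x : JZero (M * q)} (hx : x ∈ YJ D A (n * k)) (h0 : n • x = 0) : x ∈ YJ D A n := by
  obtain ⟨c, hc, rfl⟩ := hx
  have h1 : n • c = 0 := by
    apply picHom_injective (M * q) (n * k)
    rw [map_nsmul, h0, map_zero]
  obtain ⟨c', rfl⟩ := Exp.exists_up_eq_of_nsmul_eq_zero (NeZero.pos n) (NeZero.pos k) c h1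
  refine ⟨c', ⟨isKinf_of_up hq hA hqk hc.1, ?_⟩, (picHom_up _ _ _ c').symm⟩
  apply isKinf_of_up (k := k) hq hA hqk
  have e := wW_up (D := D) (k := k) c'
  exact e ▸ hc.2

end Fermat.Agent.S43.E0.Inst

end
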