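/-
Row 37 (S43), block E0/INST, helper75.  THE CONCRETE `TowerU` (J-language, level `M q`) and `e0J`.
-/
import Fermat.Agent.S43.E0.LagrU
import Fermat.Agent.S43.E0.Inst.Pair
import Fermat.Agent.S43.E0.Inst.TorExp
import Fermat.Agent.Lib.Frobenius

set_option autoImplicit false

noncomputable section

namespace Fermat.Agent.S43.E0.Inst

open ModularCurve AlgebraicCurve Fermat.Agent.S24 Fermat.Agent.S19.Weil Fermat.Agent.S15
  Fermat.Agent.S15.Pair Fermat.Agent.C1 Fermat.Agent.S17.W Fermat.Agent.S43.Free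
  Fermat.Agent.S33.Mid Fermat.Agent.GAL.E

section Res

variable {N : ℕ} [NeZero N] {p : ℕ} {G : ℕ → Prop} {ev : ℕ → ℤ}

/-- Restriction to `VV` of an endomorphism preserving it. -/
def resV (f : AddMonoid.End (JZero N)) (hf : ∀ x ∈ VV N p G ev, f x ∈ VV N p G ev) :
    VV N p G ev →+ VV N p G ev :=
  ((f : JZero N →+ JZero N).comp (VV N p G ev).subtype).codRestrict (VV N p G ev) fun x => hf x x.2

theorem coe_resV (f : AddMonoid.End (JZero N)) (hf : ∀ x ∈ VV N p G ev, f x ∈ VV N p G ev)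
    (x : VV N p G ev) : ((resV f hf x : VV N p G ev) : JZero N) = f x := rfl

theorem mem_Tp_iff {j : ℕ} {x : VV N p G ev} : x ∈ Tp (VV N p G ev) p j ↔ (x : JZero N) ∈ tors N (p ^ j) := by
  rw [mem_Tp, mem_tors, ← AddSubgroup.coe_nsmul]
  exact ⟨fun h => by rw [h]; rfl, fun h => Subtype.ext h⟩

/-- The Galois action as an endomorphism. -/
def galEnd (N : ℕ) (σ : S15.GQ) : AddMonoid.End (JZero N) := DistribSMul.toAddMonoidHom (JZero N) σ

theorem galEnd_apply (σ : S15.GQ) (x : JZero N) : galEnd N σ x = σ • x := rfl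

end Res

theorem YJ_congr {M q : ℕ} [NeZero M] [NeZero q] (D : ALData M q) (A : ValuationSubring Kbar)
    {n n' : ℕ} [NeZero n] [NeZero n'] (h : n = n') : YJ D A n = YJ D A n' := by
  subst h
  rfl

variable {M q : ℕ} [NeZero M] [NeZero q] (D : ALData M q) (A : ValuationSubring Kbar)
  (p : ℕ) [NeZero p] (G : ℕ → Prop) (ev : ℕ → ℤ)

/-- **(OLD)**: the `𝔪`-part dies at level `M`. -/
def Old : Prop :=
  ∀ (j : ℕ) (c : W (M * q) (p ^ j)), picHom (M * q) (p ^ j) c ∈ VV (M * q) p G ev → D.nmW (p ^ j) c = 0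

/-- The Galois action on `V`. -/
def galV (hp : p.Prime) (σ : S15.GQ) : VV (M * q) p G ev →+ VV (M * q) p G ev :=
  resV (galEnd (M * q) σ) fun _ hx => smul_mem_VV (M * q) p G ev hp σ hx

/-- `w` on `V`. -/
def wV (hp : p.Prime) (hq : q.Prime) : VV (M * q) p G ev →+ VV (M * q) p G ev :=
  resV (invol D hq).w fun _ hx => map_mem_VV (M * q) p G ev hp _ (invol D hq).w_gal hx

/-- The toric part of `V[p ^ j]`. -/
def YV (j : ℕ) : AddSubgroup (VV (M * q) p G ev) := (YJ D A (p ^ j)).comap (VV (M * q) p G ev).subtype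

theorem mem_YV {j : ℕ} {x : VV (M * q) p G ev} :
    x ∈ YV D A p G ev j ↔ (x : JZero (M * q)) ∈ YJ D A (p ^ j) := Iff.rfl

/-- **The concrete tower.** -/
def towerU (hT : NodalTarget) (hp : p.Prime) (hq : q.Prime) (hqM : ¬ q ∣ M) (hqp : q ≠ p)
    (hA : A.LiesOverPrime q) (φ : S15.GQ) (hφ : A.IsFrobeniusAt φ q) (hold : Old D p G ev) :
    TowerU p (VV (M * q) p G ev) Kbar where
  hp := hp
  q := q
  a := padicValNat p (q ^ 4 - q ^ 2)
  hqa := by
    have : Fact p.Prime := ⟨hp⟩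
    apply pow_succ_padicValNat_not_dvd
    have h1 : q ^ 2 < q ^ 4 := Nat.pow_lt_pow_right hq.one_lt (by norm_num)
    omega
  fin := fun j => by
    have := finite_tors' (M * q) (pow_pos hp.pos j)
    exact Finite.of_injective
      (fun x : Tp (VV (M * q) p G ev) p j => (⟨x.1.1, mem_Tp_iff.1 x.2⟩ : tors (M * q) (p ^ j)))
      fun x y h => Subtype.ext (Subtype.ext (congrArg (fun z : tors (M * q) (p ^ j) => z.1) h))
  div := fun x => by
    obtain ⟨y, hy, h⟩ := VV_div (M * q) p G ev hp x.2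
    exact ⟨⟨y, hy⟩, Subtype.ext h⟩
  e := fun j x y => weil (p ^ j) (x : JZero (M * q)) (y : JZero (M * q))
  pairing := fun j => by
    have hB := isBimul_tors (M * q) (pow_pos hp.pos j)
    refine ⟨fun x hx y hy => hB.ne_zero _ (mem_Tp_iff.1 hx) _ (mem_Tp_iff.1 hy),
      fun x hx x' hx' y hy => hB.add_left _ (mem_Tp_iff.1 hx) _ (mem_Tp_iff.1 hx') _ (mem_Tp_iff.1 hy),
      fun x hx y hy y' hy' => hB.add_right _ (mem_Tp_iff.1 hx) _ (mem_Tp_iff.1 hy) _ (mem_Tp_iff.1 hy'),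
      fun x hx h => ?_⟩
    apply Subtype.ext
    exact VV_nondeg (M * q) p G ev hp j x ⟨x.2, mem_Tp_iff.1 hx⟩
      fun y hy => h ⟨y, hy.1⟩ (mem_Tp_iff.2 hy.2)
  tower := fun j x hx y hy => by
    have hx' : (p ^ 1 * p ^ j) • (x : JZero (M * q)) = 0 := by
      rw [← pow_add, add_comm]; exact mem_Tp_iff.1 hx
    have hy' : (p ^ 1 * p ^ j) • (y : JZero (M * q)) = 0 := by
      rw [← pow_add, add_comm]; exact mem_Tp_iff.1 hy
    have h := WeilJ.mul_pow (M * q) (pow_pos hp.pos 1) (pow_pos hp.pos j) hx' hy'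
    rw [← pow_add, add_comm 1 j] at h
    exact h
  φ := galV p G ev hp φ
  e_φ := fun j x hx y hy =>
    weil_gal_pow (M * q) (pow_pos hp.pos j) φ q
      (fun ζ hζ => Fermat.Agent.S58.frob_zeta hq A hA φ hφ
        (fun h => hqp ((Nat.prime_dvd_prime_iff_eq hq hp).1 (hq.dvd_of_dvd_pow h))) ζ hζ)
      (mem_Tp_iff.1 hx) (mem_Tp_iff.1 hy)
  U := -wV D p G ev hp hq
  e_U := fun j x hx y hy => by
    have hn := pow_pos hp.pos j
    have hx' := mem_Tp_iff.1 hx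
    have hy' := mem_Tp_iff.1 hy
    have hwx : (invol D hq).w (x : JZero (M * q)) ∈ tors (M * q) (p ^ j) := end_mem_tors _ hx'
    have hwy : (invol D hq).w (y : JZero (M * q)) ∈ tors (M * q) (p ^ j) := end_mem_tors _ hy'
    show weil (p ^ j) (-(invol D hq).w (x : JZero (M * q))) (-(invol D hq).w (y : JZero (M * q))) = _
    rw [WeilJ.neg_left (M * q) hn hwx ((tors (M * q) (p ^ j)).neg_mem hwy),
      WeilJ.neg_right (M * q) hn hwx hwy, inv_inv, (invol D hq).w_weil _ hn _ hx' _ hy']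
  Y := YV D A p G ev
  Y_le := fun j x hx => mem_Tp_iff.2 (YJ_le_tors _ hx)
  Y_p := fun j x hx => by
    have h1 : (x : JZero (M * q)) ∈ YJ D A (p ^ j * p) := (YJ_congr D A (pow_succ p j)) ▸ hx
    exact nsmul_mem_YJ h1
  Y_tors := fun j x hx h0 => by
    have h1 : (x : JZero (M * q)) ∈ YJ D A (p ^ j * p) := (YJ_congr D A (pow_succ p j)) ▸ hx
    exact mem_YJ_of_nsmul_eq_zero hq hA
      (fun h => hqp ((Nat.prime_dvd_prime_iff_eq hq hp).1 h)) h1 (mem_Tp_iff.1 h0)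
  Y_φ := fun j x hx => by
    obtain ⟨c, hc⟩ := exists_picHom_eq (M * q) (p ^ j) (mem_Tp_iff.1 hx)
    have h1 : picHom (M * q) (p ^ j) c ∈ VV (M * q) p G ev := hc ▸ x.2
    have h2 : picHom (M * q) (p ^ j) (D.wW (p ^ j) c) ∈ VV (M * q) p G ev := by
      rw [picHom_wW D hq]
      exact map_mem_VV (M * q) p G ev hp _ (invol D hq).w_gal h1
    have h := frob_add_mem_YJ (A := A) hq hA hφ c (hold j c h1) (hold j _ h2)
    rw [hc] at h
    show φ • (x : JZero (M * q)) - -(invol D hq).w (x : JZero (M * q)) ∈ YJ D A (p ^ j)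
    rw [sub_neg_eq_add]
    exact h
  Y_sq := fun j x hx => Subtype.ext (frob_sq_of_mem_YJ hT hq hqM hA
    (fun h => hqp ((Nat.prime_dvd_prime_iff_eq hq hp).1 (hq.dvd_of_dvd_pow h))) hφ hx)

/-- **(ORTH')**: a class of order `p` of the `𝔪`-part fixed by `σ` is orthogonal to the toric classes. -/
def Orth (σ : S15.GQ) : Prop :=
  ∀ x ∈ VV (M * q) p G ev, p • x = 0 → σ • x = x →
    ∀ y ∈ VV (M * q) p G ev, y ∈ YJ D A p → weil p y x = 1

/-- `N = σ - 1` on `V`. -/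
def monoV (hp : p.Prime) (σ : S15.GQ) : VV (M * q) p G ev →+ VV (M * q) p G ev :=
  galV p G ev hp σ - AddMonoidHom.id _

theorem coe_monoV (hp : p.Prime) (σ : S15.GQ) (x : VV (M * q) p G ev) :
    ((monoV p G ev hp σ x : VV (M * q) p G ev) : JZero (M * q)) = σ • (x : JZero (M * q)) - x := rfl

theorem monoV_eq_zero_iff (hp : p.Prime) (σ : S15.GQ) (x : VV (M * q) p G ev) :
    monoV p G ev hp σ x = 0 ↔ σ • (x : JZero (M * q)) = x := by
  rw [← sub_eq_zero (a := σ • (x : JZero (M * q))), ← coe_monoV p G ev hp]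
  exact ⟨fun h => by rw [h]; rfl, fun h => Subtype.ext h⟩

/-- **The monodromy operator satisfies `IsMono`.** -/
theorem isMono (hT : NodalTarget) (hp : p.Prime) (hq : q.Prime) (hqM : ¬ q ∣ M) (hqp : q ≠ p)
    (hA : A.LiesOverPrime q) (φ : S15.GQ) (hφ : A.IsFrobeniusAt φ q) (hold : Old D p G ev)
    (σ : S15.GQ) (hσ : σ ∈ A.inertiaSubgroupIn ℚ) (horth : Orth D A p G ev σ) :
    (towerU D A p G ev hT hp hq hqM hqp hA φ hφ hold).IsMono (monoV p G ev hp σ) where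
  map_mem := fun j x hx => smul_sub_mem_YJ hq hA hσ (mem_Tp_iff.1 hx)
  map_Y := fun j x hx => (monoV_eq_zero_iff p G ev hp σ x).2 (smul_eq_of_mem_YJ hT hq hqM hA
    (fun h => hqp ((Nat.prime_dvd_prime_iff_eq hq hp).1 (hq.dvd_of_dvd_pow h))) hσ hx)
  orth := fun x hx hNx y hy => by
    obtain ⟨y', hy', rfl⟩ :=
      (towerU D A p G ev hT hp hq hqM hqp hA φ hφ hold).YY_anti' (Nat.zero_le _) hy
    have h1 : (y' : JZero (M * q)) ∈ YJ D A p := (YJ_congr D A (pow_one p)) ▸ hy'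
    have hx' : p • (x : JZero (M * q)) = 0 := by
      have := mem_Tp_iff.1 hx
      rwa [pow_one] at this
    have h := horth x x.2 hx' ((monoV_eq_zero_iff p G ev hp σ x).1 hNx) y' y'.2 h1
    show weil (p ^ 1) ((p ^ 0 • y' : VV (M * q) p G ev) : JZero (M * q)) (x : JZero (M * q)) = 1
    rw [pow_zero, one_smul, pow_one]
    exact h

/-- **`e0J`** : exactness at all levels, J-language. -/
theorem e0J (hT : NodalTarget) (hp : p.Prime) (hq : q.Prime) (hqM : ¬ q ∣ M) (hqp : q ≠ p)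
    (hA : A.LiesOverPrime q) (hold : Old D p G ev)
    (σ : S15.GQ) (hσ : σ ∈ A.inertiaSubgroupIn ℚ) (horth : Orth D A p G ev σ) (k : ℕ) :
    (∀ x ∈ VV (M * q) p G ev, p ^ k • x = 0 → σ • x = x →
      ∃ z ∈ VV (M * q) p G ev, p ^ k • z = 0 ∧ x = σ • z - z) ∧
    (∀ x ∈ VV (M * q) p G ev, x ∈ YJ D A (p ^ k) ↔ p ^ k • x = 0 ∧ σ • x = x) ∧
    (∀ y ∈ VV (M * q) p G ev, p ^ (k + 1) • y = 0 → σ • (p ^ k • y) = p ^ k • y →
      ∃ z ∈ VV (M * q) p G ev, ∃ z' ∈ VV (M * q) p G ev, p ^ (k + 1) • z = 0 ∧ p ^ (k + 1) • z' = 0 ∧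
        y = (σ • z - z) + p • z') := by
  obtain ⟨φ, hφ⟩ := Fermat.Agent.Lib.Frobenius.exists_isFrobeniusAt A q hq hA
  have H := isMono D A p G ev hT hp hq hqM hqp hA φ hφ hold σ hσ horth
  refine ⟨fun x hx h0 hσx => ?_, fun x hx => ?_, fun y hy h0 hσy => ?_⟩
  · obtain ⟨z, hz, e⟩ := H.exact_all k (x := ⟨x, hx⟩) (mem_Tp_iff.2 h0)
      ((monoV_eq_zero_iff p G ev hp σ _).2 hσx)
    exact ⟨z, z.2, mem_Tp_iff.1 hz, congrArg Subtype.val e⟩
  · have h := H.mem_Y_iff k (x := ⟨x, hx⟩)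
    rw [monoV_eq_zero_iff, mem_Tp_iff] at h
    exact h
  · obtain ⟨z, hz, z', hz', e⟩ := H.pure k (y := ⟨y, hy⟩) (mem_Tp_iff.2 h0)
      ((monoV_eq_zero_iff p G ev hp σ _).2 hσy)
    exact ⟨z, z.2, z', z'.2, mem_Tp_iff.1 hz, mem_Tp_iff.1 hz', congrArg Subtype.val e⟩

end Fermat.Agent.S43.E0.Inst

end
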