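/-
Row 37 (S43), block E0, node INST (owner helper75), leaf TorTower (helper92).

The toric parts `IsTorJ D A n` (`S15/LocN/Jac.lean`) in a tower of exponents, generic exponents `r`, `k`:
* `isTorJ_nsmul`             : `x` toric of exponent `r * k`  ⟹  `k • x` toric of exponent `r`            (field `Y_p`);
* `isTorJ_of_nsmul_eq_zero`  : `x` toric of exponent `r * k`, `r • x = 0`  ⟹  `x` toric of exponent `r`   (field `Y_tors`, (f3));
* `isTorJ_mul`               : `x` toric of exponent `r`  ⟹  `x` toric of exponent `r * k`;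
* the versions `isTorJ_pow_*` for `p ^ (j + 1)`, in the shape of `E0.Tower` / `E0.TowerU`.
-/
import Fermat.Agent.S15.LocN.Jac
import Fermat.Agent.S43.C4.Series
import Fermat.Agent.C1.Approx

set_option autoImplicit false

noncomputable section

namespace Fermat.Agent.S43.E0.Inst

open ModularCurve AlgebraicCurve Fermat.Agent.S24 Fermat.Agent.S24.B Fermat.Agent.GAL
  Fermat.Agent.GAL.E Fermat.Agent.C1 Fermat.Agent.S27 Fermat.Agent.S19.Weil
  Fermat.Agent.S15.LocN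

variable {A : ValuationSubring Kbar} {q : ℕ}

/-- an `n`-th root (in `FN N`) of an element `≡ 1` is `≡ const`. -/
theorem exists_redS_one_of_cong1_pow (hq : q.Prime) (hA : A.LiesOverPrime q) {N : ℕ} (z : FN N)
    {n : ℕ} (hn : n ≠ 0) (h : Cong1 A N (z ^ n)) :
    ∃ c : Kbar, RedS A (z : LaurentSeries Kbar) c 1 := by
  have := C4.Direct.isAlgClosed_residueField A
  have hz0 : z ≠ 0 := by
    rintro rfl
    rw [zero_pow hn] at h
    exact h.ne_zero rfl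
  obtain ⟨c', r, h'⟩ := C1.exists_redS hq hA z hz0
  have h1 : RedS A ((z : LaurentSeries Kbar) ^ n) 1 1 := h.redS
  obtain ⟨a, -, ha2⟩ := h1.unique (h'.pow n)
  rw [mul_one] at ha2
  obtain ⟨b', rfl⟩ := C4.Direct.eq_C_of_pow_eq_C r hn _ ha2
  exact C4.Direct.exists_redS_one_of_C h'

/-- `z ≡ c` ⟹ `c⁻¹ z ≡ 1`. -/
theorem cong1_of_redS_one (hq : q.Prime) (hA : A.LiesOverPrime q) {N : ℕ} {z : FN N} {c : Kbar}
    (h : RedS A (z : LaurentSeries Kbar) c 1) : Cong1 A N (algebraMap Kbar (FN N) c⁻¹ * z) := by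
  apply cong1_of_redS hq hA
  rw [Sep.coe_algebraMap_mul]
  have hc : c ≠ 0 := h.1
  have h1 := (RedS.const (A := A) (inv_ne_zero hc)).mul h
  rwa [inv_mul_cancel₀ hc, one_mul] at h1

variable {M : ℕ} [NeZero M] [NeZero q]

/-- **(Y_p)** -/
theorem isTorJ_nsmul {D : ALData M q} {r k : ℕ} {x : JZero (M * q)}
    (h : IsTorJ D A (r * k) x) : IsTorJ D A r (k • x) := by
  obtain ⟨a, h1, h2⟩ := h
  exact ⟨torsRepMul a, h1, h2⟩

/-- A representative at level `r` gives a representative at level `r * k`. -/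
def torsRepPow {K F : Type*} [Field K] [Field F] [Algebra K F] {r : ℕ} (k : ℕ) {x : Pic0 K F}
    (b : TorsRep r x) : TorsRep (r * k) x where
  D := b.D
  f := b.f ^ k
  deg := b.deg
  cls_eq := b.cls_eq
  div := by
    have h := rep_isDivOf_pow b.div k
    rwa [← mul_smul, mul_comm, ← Nat.cast_mul] at h

theorem isTorJ_mul {D : ALData M q} {r : ℕ} (k : ℕ) {x : JZero (M * q)}
    (h : IsTorJ D A r x) : IsTorJ D A (r * k) x := by
  obtain ⟨a, h1, h2⟩ := h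
  refine ⟨torsRepPow k a, h1.pow k, ?_⟩
  show Cong1 A (M * q) (D.w (a.f ^ k))
  rw [map_pow]
  exact h2.pow k

/-- **(f3) = (Y_tors)** -/
theorem isTorJ_of_nsmul_eq_zero (D : ALData M q) (hq : q.Prime) (hA : A.LiesOverPrime q)
    {r k : ℕ} (hr : 0 < r) (hk : 0 < k) {x : JZero (M * q)} (h : IsTorJ D A (r * k) x)
    (hx : r • x = 0) : IsTorJ D A r x := by
  obtain ⟨a, h1, h2⟩ := h
  have hx' : (r : ℤ) • x = 0 := by rw [natCast_zsmul]; exact hx
  obtain ⟨b, -⟩ := exists_torsRep hx' (∅ : Finset (Place Kbar (FN (M * q))))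
  obtain ⟨g, c, G, hc, hG, -, hf⟩ := (torsRepPow k b).exists_eq (Nat.mul_pos hr hk) a
  have hf' : a.f = algebraMap Kbar (FN (M * q)) c * b.f ^ k * g ^ (r * k) := hf
  obtain ⟨c₁, hc₁⟩ := IsAlgClosed.exists_pow_nat_eq c hk
  have hc₁0 : c₁ ≠ 0 := by
    rintro rfl
    rw [zero_pow hk.ne'] at hc₁
    exact hc hc₁.symm
  -- the root
  set b₁ : TorsRep r x := (b.move g G hG).scale c₁ hc₁0 with hb₁
  set h₀ : FN (M * q) := algebraMap Kbar (FN (M * q)) c₁ * (g ^ r * b.f) with hh₀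
  have hb₁f : b₁.f = h₀ := rfl
  have hpow : h₀ ^ k = a.f := by
    rw [hf', hh₀, mul_pow, mul_pow, ← map_pow, hc₁, ← pow_mul]
    ring
  obtain ⟨e₁, he₁⟩ := exists_redS_one_of_cong1_pow hq hA h₀ hk.ne' (by rw [hpow]; exact h1)
  obtain ⟨e₂, he₂⟩ := exists_redS_one_of_cong1_pow hq hA (D.w h₀) hk.ne'
    (by rw [← map_pow, hpow]; exact h2)
  have he₁0 : e₁ ≠ 0 := he₁.1
  have he₂0 : e₂ ≠ 0 := he₂.1
  obtain ⟨γ₁, hγ₁⟩ := IsAlgClosed.exists_pow_nat_eq e₁⁻¹ hr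
  obtain ⟨γ₂, hγ₂⟩ := IsAlgClosed.exists_pow_nat_eq e₂⁻¹ hr
  have hγ₁0 : γ₁ ≠ 0 := by
    rintro rfl
    rw [zero_pow hr.ne'] at hγ₁
    exact inv_ne_zero he₁0 hγ₁.symm
  have hγ₂0 : γ₂ ≠ 0 := by
    rintro rfl
    rw [zero_pow hr.ne'] at hγ₂
    exact inv_ne_zero he₂0 hγ₂.symm
  have hκ0 : algebraMap Kbar (FN (M * q)) (γ₂ / γ₁) ≠ 0 :=
    (map_ne_zero _).2 (div_ne_zero hγ₂0 hγ₁0)
  obtain ⟨h', hh'0, C₁, C₂⟩ := exists_approx D hq hA _ hκ0
  set s : FN (M * q) := algebraMap Kbar (FN (M * q)) γ₁ * h' with hs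
  have hs0 : s ≠ 0 := mul_ne_zero ((map_ne_zero _).2 hγ₁0) hh'0
  obtain ⟨Gs, hGs⟩ := exists_isDivOf (K := Kbar) s hs0
  refine ⟨b₁.move s Gs hGs, ?_, ?_⟩
  · show Cong1 A (M * q) (s ^ r * b₁.f)
    have e : s ^ r * b₁.f = h' ^ r * (algebraMap Kbar (FN (M * q)) e₁⁻¹ * h₀) := by
      rw [hb₁f, hs, mul_pow, ← map_pow, hγ₁]
      ring
    rw [e]
    exact (C₁.pow r).mul (cong1_of_redS_one hq hA he₁)
  · show Cong1 A (M * q) (D.w (s ^ r * b₁.f))
    have hw : ∀ z : Kbar, D.w (algebraMap Kbar (FN (M * q)) z) = algebraMap Kbar (FN (M * q)) z :=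
      fun z => D.w.commutes z
    have e : D.w (s ^ r * b₁.f) =
        D.w (h' / algebraMap Kbar (FN (M * q)) (γ₂ / γ₁)) ^ r *
          (algebraMap Kbar (FN (M * q)) e₂⁻¹ * D.w h₀) := by
      rw [hb₁f, hs, map_mul, map_pow, map_mul, hw, map_div₀, hw, ← hγ₂, map_div₀, map_pow]
      have h3 : algebraMap Kbar (FN (M * q)) γ₁ ≠ 0 := (map_ne_zero _).2 hγ₁0
      have h4 : algebraMap Kbar (FN (M * q)) γ₂ ≠ 0 := (map_ne_zero _).2 hγ₂0
      rw [div_div_eq_mul_div, div_pow, mul_pow, mul_pow]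
      field_simp
    rw [e]
    exact (C₂.pow r).mul (cong1_of_redS_one hq hA he₂)

/-! ### the shape of `E0.Tower` -/

theorem isTorJ_pow_smul {D : ALData M q} {p j : ℕ} {x : JZero (M * q)}
    (h : IsTorJ D A (p ^ (j + 1)) x) : IsTorJ D A (p ^ j) (p • x) := by
  rw [pow_succ] at h
  exact isTorJ_nsmul h

theorem isTorJ_pow_of_smul_eq_zero (D : ALData M q) (hq : q.Prime) (hA : A.LiesOverPrime q)
    {p j : ℕ} (hp : 0 < p) {x : JZero (M * q)} (h : IsTorJ D A (p ^ (j + 1)) x)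
    (hx : p ^ j • x = 0) : IsTorJ D A (p ^ j) x := by
  rw [pow_succ] at h
  exact isTorJ_of_nsmul_eq_zero D hq hA (pow_pos hp j) hp h hx

theorem isTorJ_pow_succ {D : ALData M q} {p j : ℕ} {x : JZero (M * q)}
    (h : IsTorJ D A (p ^ j) x) : IsTorJ D A (p ^ (j + 1)) x := by
  rw [pow_succ]
  exact isTorJ_mul p h

end Fermat.Agent.S43.E0.Inst

end
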