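/-
Row 37 (S43), block E0, node INST (helper61).  The field `Y_φ` of the tower of toric parts, in `J`-language, level `M q`,
generic exponent `n`:   `α_* x = 0`, `α_* (w x) = 0`   ⟹   `φ x + w x` is toric   (`U = - w`).

* `kumOf a`                : the Kummer unit of a representative `a : TorsRep n x`;
* `isTorJ_of_isTor`        : `IsTor D A (cls (kumOf a))  ⟹  IsTorJ D A n x`   (and the converse `IsTorJ.exists_isTor`);
* `isTor_frob_add`         : `W`-language: `nmW x = 0`, `nmW (w x) = 0`  ⟹  `IsTor D A (ρ(φ) x + w x)`;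
* `isTorJ_frob_add`        : `J`-language.
`w` on `J` is ANY semilinear automorphism `wS` with `wS • f = D.w f` (e.g. `SemilinearAut.ofAlgAut`).
-/
import Fermat.Agent.S15.LocN.Jac
import Fermat.Agent.C1.Approx
import Fermat.Agent.C1.FrobNorm

set_option autoImplicit false

noncomputable section

namespace Fermat.Agent.S43.E0.Inst

open ModularCurve AlgebraicCurve Fermat.Agent.S24 Fermat.Agent.S24.B Fermat.Agent.GAL
  Fermat.Agent.GAL.E Fermat.Agent.C1 Fermat.Agent.S27 Fermat.Agent.S19.Weil Fermat.Agent.S17.W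
  Fermat.Agent.S15.LocN

/-- The Kummer unit of a representative. -/
def kumOf {N n : ℕ} {x : JZero N} (a : TorsRep n x) : kum N n :=
  ⟨Units.mk0 a.f a.div.1, TorsRep.isKum a⟩

theorem coe_kumOf {N n : ℕ} {x : JZero N} (a : TorsRep n x) :
    (((kumOf a : kum N n) : (FN N)ˣ) : FN N) = a.f := rfl

variable {A : ValuationSubring Kbar} {M q : ℕ} [NeZero M] [NeZero q]

/-- From the Kummer model to the Jacobian. -/
theorem isTorJ_of_isTor {D : ALData M q} {n : ℕ} {x : JZero (M * q)} (a : TorsRep n x)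
    (h : IsTor D A (cls (kumOf a))) : IsTorJ D A n x := by
  obtain ⟨u, hcls, C1, C2⟩ := h
  have h3 : cls (u * (kumOf a)⁻¹) = 0 := by
    rw [cls_mul, cls_inv, hcls]
    exact add_neg_cancel (E.cls (kumOf a))
  obtain ⟨t, ht⟩ := (E.cls_eq_zero_iff _).mp h3
  have ht' : (t : FN (M * q)) ^ n = ((u : (FN (M * q))ˣ) : FN (M * q)) * a.f⁻¹ := by
    have := congrArg (fun z : (FN (M * q))ˣ => (z : FN (M * q))) ht
    simp only [powMonoidHom_apply, Units.val_pow_eq_pow_val, Subgroup.coe_mul, Units.val_mul,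
      InvMemClass.coe_inv, Units.val_inv_eq_inv_val] at this
    exact this
  have hu : ((u : (FN (M * q))ˣ) : FN (M * q)) = (t : FN (M * q)) ^ n * a.f := by
    rw [ht', inv_mul_cancel_right₀ a.div.1]
  obtain ⟨G, hG⟩ := exists_isDivOf (K := Kbar) (t : FN (M * q)) t.ne_zero
  refine ⟨a.move (t : FN (M * q)) G hG, ?_, ?_⟩
  · show Cong1 A (M * q) ((t : FN (M * q)) ^ n * a.f)
    rw [← hu]; exact C1
  · show Cong1 A (M * q) (D.w ((t : FN (M * q)) ^ n * a.f))
    rw [← hu]; exact C2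

/-- From the Jacobian to the Kummer model. -/
theorem IsTorJ.exists_isTor {D : ALData M q} {n : ℕ} {x : JZero (M * q)} (h : IsTorJ D A n x) :
    ∃ a : TorsRep n x, IsTor D A (cls (kumOf a)) := by
  obtain ⟨a, C1, C2⟩ := h
  exact ⟨a, kumOf a, rfl, C1, C2⟩

/-- **(`Y_φ`), `W`-language.** -/
theorem isTor_frob_add (D : ALData M q) (hq : q.Prime) (hA : A.LiesOverPrime q) {n : ℕ} [NeZero n]
    (σ : GQ) (hσ : A.IsFrobeniusAt σ q) (x : W (M * q) n) (h1 : D.nmW n x = 0)
    (h2 : D.nmW n (D.wW n x) = 0) : IsTor D A (rho (M * q) n σ x + D.wW n x) := by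
  have k1 := (isKinf_frob D hq hA σ hσ x).neg
  have k2 := (isKinf_frob D hq hA σ hσ (D.wW n x)).neg
  rw [h1, map_zero] at k1
  rw [h2, map_zero, D.wW_wW n hq] at k2
  apply isTor_of_isKinf D hq hA
  · have e : rho (M * q) n σ x + D.wW n x = -(0 - D.wW n x - rho (M * q) n σ x) := by abel
    rw [e]; exact k2
  · have e : D.wW n (rho (M * q) n σ x + D.wW n x) =
        -(0 - x - rho (M * q) n σ (D.wW n x)) := by
      rw [map_add, D.wW_wW n hq, D.wW_rho n hq]
      abel
    rw [e]; exact k1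

/-- **(`Y_φ`), `J`-language**: if the norms to level `M` of `x` and of `w x` vanish then `φ x + w x` is toric. -/
theorem isTorJ_frob_add (D : ALData M q) (hq : q.Prime) (hA : A.LiesOverPrime q) {n : ℕ}
    (hn : 0 < n) (wS : SemilinearAut Kbar (FN (M * q))) (hw : ∀ f : FN (M * q), wS • f = D.w f)
    (σ : GQ) (hσ : A.IsFrobeniusAt σ q) {x : JZero (M * q)} (a : TorsRep n x)
    (h1 : ∃ v : FN M, D.nm a.f = v ^ n) (h2 : ∃ v : FN M, D.nm (D.w a.f) = v ^ n) :
    IsTorJ D A n (σ • x + wS • x) := by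
  have : NeZero n := ⟨hn.ne'⟩
  have hz : ∀ u : kum (M * q) n, (∃ v : FN M, D.nm ((u : (FN (M * q))ˣ) : FN (M * q)) = v ^ n) →
      D.nmW n (cls u) = 0 := by
    rintro u ⟨v, hv⟩
    show cls (⟨Units.map D.nm (u : (FN (M * q))ˣ), D.isKum_nm n _ u.2⟩ : kum M n) = 0
    rw [E.cls_eq_zero_iff]
    exact mem_pows_of_eq_pow (w := v) hv
  have e1 : D.nmW n (cls (kumOf a)) = 0 := hz _ h1
  have e2 : D.nmW n (D.wW n (cls (kumOf a))) = 0 := hz _ h2
  have key := isTor_frob_add D hq hA σ hσ (cls (kumOf a)) e1 e2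
  let b : TorsRep n (σ • x + wS • x) := (TorsRep.smul (gal (M * q) σ) a).add (TorsRep.smul wS a)
  apply isTorJ_of_isTor b
  have e3 : cls (kumOf b) = rho (M * q) n σ (cls (kumOf a)) + D.wW n (cls (kumOf a)) := by
    rw [rho_cls]
    show cls (kumOf b) = cls _ + cls _
    rw [← cls_mul]
    congr 1
    apply Subtype.ext
    apply Units.ext
    show gal (M * q) σ • a.f * wS • a.f = galF (M * q) σ a.f * D.w a.f
    rw [hw]
    rfl
  rw [e3]
  exact key

end Fermat.Agent.S43.E0.Inst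

end
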